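import Fermat.Agent.BAD.AtP.Level.Form
import Fermat.Agent.BAD.Toric.BalTrace
import Fermat.Agent.BAD.Toric.EForm

/-!
# Functions of level `q M` over the algebraic numbers

A function whose expansion at `∞` is fixed by a subgroup of finite index of the automorphisms of
`ℂ` has algebraic expansions at all cusps.
-/

set_option autoImplicit false

open UpperHalfPlane CongruenceSubgroup
open scoped MatrixGroups

noncomputable section

namespace FermatAgent.BAD.AtP

open FermatAgent.BAD.Toric (algSub mem_algSub zetaC_mem_algSub)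
open FermatAgent.ES (BSub BRing act lexp lexp_eq zetaC AuxLevel CPlace GoodRoot HasExp HasLExp
  IsTwist parGroup conjChar conjAut conjHom lexp_conjHom goodLevel_Gamma0 auxW auxSer mapSer
  GalRel SerIn)

theorem inv_mem_algSub {x : ℂ} (hx : x ∈ algSub) : x⁻¹ ∈ algSub :=
  mem_algSub.mpr (mem_algSub.mp hx).inv

/-- The algebraic numbers have the good roots of unity of every level. -/
theorem goodRoot_algSub (N : ℕ) [NeZero N] : GoodRoot N algSub (zetaC N) where
  prim := ES.zetaC_isPrimitiveRoot N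
  mem := zetaC_mem_algSub N
  unit_one_sub i hi :=
    have h1 : (1 : ℂ) - zetaC N ^ i ∈ algSub :=
      algSub.sub_mem algSub.one_mem (algSub.pow_mem (zetaC_mem_algSub N) i)
    ⟨(ES.zetaC_goodRoot_top.unit_one_sub i hi).1, h1, inv_mem_algSub h1⟩

/-- The automorphisms fixing the root of unity of level `N`. -/
def zetaStab (N : ℕ) : Subgroup (ℂ ≃+* ℂ) where
  carrier := {σ | σ (zetaC N) = zetaC N}
  one_mem' := rfl
  mul_mem' {a b} ha hb := by
    show a (b (zetaC N)) = zetaC N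
    rw [hb, ha]
  inv_mem' {a} ha := by
    show a.symm (zetaC N) = zetaC N
    rw [RingEquiv.symm_apply_eq]
    exact ha.symm

theorem mem_zetaStab {N : ℕ} {σ : ℂ ≃+* ℂ} : σ ∈ zetaStab N ↔ σ (zetaC N) = zetaC N := Iff.rfl

instance finiteIndex_zetaStab (N : ℕ) [NeZero N] : (zetaStab N).FiniteIndex := by
  have : Finite ((ℂ ≃+* ℂ) ⧸ zetaStab N) := by
    have hroot : ∀ σ : ℂ ≃+* ℂ, σ (zetaC N) ∈ (Polynomial.nthRootsFinset N (1 : ℂ)) := fun σ => by
      rw [Polynomial.mem_nthRootsFinset (NeZero.pos N), ← map_pow,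
        (ES.zetaC_isPrimitiveRoot N).pow_eq_one, map_one]
    refine Finite.of_injective (β := (Polynomial.nthRootsFinset N (1 : ℂ)))
      (Quotient.lift (s := QuotientGroup.leftRel (zetaStab N))
        (fun σ : ℂ ≃+* ℂ => ⟨σ (zetaC N), hroot σ⟩) ?_) ?_
    · intro σ τ hστ
      rw [← Quotient.eq_iff_equiv] at hστ
      have h2 := congrArg σ (mem_zetaStab.mp (QuotientGroup.eq.mp hστ))
      rw [show σ ((σ⁻¹ * τ) (zetaC N)) = τ (zetaC N) from σ.apply_symm_apply _] at h2
      exact Subtype.ext h2.symm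
    · rintro ⟨σ⟩ ⟨τ⟩ h
      refine Quotient.sound (QuotientGroup.leftRel_apply.mpr (mem_zetaStab.mpr ?_))
      show σ.symm (τ (zetaC N)) = zetaC N
      rw [RingEquiv.symm_apply_eq]
      exact (congrArg Subtype.val h).symm
  exact Subgroup.finiteIndex_of_finite_quotient

variable {q M m : ℕ} [hq : Fact q.Prime] [NeZero M]

/-- **Descent to the algebraic numbers.** -/
theorem mem_LRing_algSub_of_fixed (haux : AuxLevel M m) {f : ℍ → ℂ} (hf : f ∈ LSub q M)
    (H : Subgroup (ℂ ≃+* ℂ)) [H.FiniteIndex]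
    (h : ∀ σ ∈ H, ∀ i : ℤ, σ ((lexp (q * M) 1 f).coeff i) = (lexp (q * M) 1 f).coeff i) :
    f ∈ LRing q M algSub := by
  refine mem_LRing.mpr ⟨hf, fun γ i => mem_algSub.mpr ?_⟩
  refine ES.isAlgebraic_of_finiteIndex (H ⊓ zetaStab (q * M)) fun σ hσ => ?_
  obtain ⟨hσH, hσz⟩ := Subgroup.mem_inf.mp hσ
  have ha : IsUnit ((1 : ℕ) : ZMod (q * M)) := by rw [Nat.cast_one]; exact isUnit_one
  have hz : σ (zetaC (q * M)) = zetaC (q * M) ^ (1 : ℕ) := by rw [pow_one]; exact hσz
  have haux' := auxLevel_level (q := q) haux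
  set f' := conjHom haux' ha hz ⟨f, hf.1⟩
  have hrel : ∀ δ : SL(2, ℤ), GalRel ((1 : ℕ) : ZMod (q * M)) δ δ := fun δ => by
    have hone : (!![1, 0; 0, ((1 : ℕ) : ZMod (q * M))] : Matrix (Fin 2) (Fin 2) (ZMod (q * M))) =
        1 := by
      rw [Nat.cast_one, Matrix.one_fin_two]
    rw [GalRel, hone, one_mul, mul_one]
  have e : (f' : ℍ → ℂ) = f := by
    refine ES.lexp_injective f'.2 hf.1 (γ := 1) ?_
    rw [lexp_conjHom haux' ha hz _ (hrel 1)]
    exact HahnSeries.ext (funext fun n => h σ hσH n)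
  have h2 := lexp_conjHom haux' ha hz ⟨f, hf.1⟩ (hrel γ)
  rw [e] at h2
  exact (congrArg (fun s : LaurentSeries ℂ => s.coeff i) h2).symm

/-- **The `q`-th power of the normalised twisted form.** -/
theorem pow_div_auxW_mem_LRing_algSub (haux : AuxLevel M m) (hM : M.Coprime q) {L : ℕ} [NeZero L]
    (hLM : L ∣ M) (x : parGroup (Gamma0 (L * q)) q) {v : ℍ → ℂ} {c : PowerSeries ℂ}
    (hv : IsTwist (Gamma0 (L * q)) ((2 * 2 : ℕ) : ℤ) (x : Gamma0 (L * q) →* ℂˣ) v)
    (hc : HasExp 1 v c)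
    (hcfix : ∀ σ : ℂ ≃+* ℂ, conjChar (goodLevel_Gamma0 (L * q)) σ x = x →
      c.map (σ : ℂ →+* ℂ) = c) :
    (fun τ => v τ / auxW haux τ ^ 2) ^ q ∈ LRing q M algSub := by
  have := ES.finiteIndex_ker_conjAut (goodLevel_Gamma0 (L * q)) q
  set u : ℍ → ℂ := (fun τ => v τ / auxW haux τ ^ 2) ^ q
  have hle : lam q M ≤ Gamma0 (L * q) := lam_le_gamma0M hM hLM
  have hu : u ∈ LSub q M := Toric.pow_div_auxW_mem_LSub haux hle x.2.1 hv
  refine mem_LRing_algSub_of_fixed haux hu
    ((conjAut (goodLevel_Gamma0 (L * q)) q).ker ⊓ zetaStab (q * M)) fun σ hσ i => ?_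
  obtain ⟨hσx, hσz⟩ := Subgroup.mem_inf.mp hσ
  have hx : conjChar (goodLevel_Gamma0 (L * q)) σ x = x := by
    rw [← ES.conjAut_apply, MonoidHom.mem_ker.mp hσx]
    rfl
  exact congrArg (fun s : LaurentSeries ℂ => s.coeff i)
    (mapSer_lexp_pow_div_auxW haux hc (hcfix σ hx) (mem_zetaStab.mp hσz))

variable (haux : AuxLevel M m) (hM : M.Coprime q)

include haux hM in
theorem hasseFun_mem_LRing_algSub : hasseFun haux q ∈ LRing q M algSub :=
  hasse_mem_LRing haux hM (goodRoot_algSub M) (zetaC_mem_algSub _)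

/-- The Hasse function of level `q M` has algebraic expansions. -/
theorem coe_hasseL_mem_algSub {O : Subring ℂ} (hA : GoodRoot M O (zetaC M))
    (hζ : zetaC (q * M) ∈ O) :
    ((hasseL haux hM hA hζ : LRing q M O) : ℍ → ℂ) ∈ LRing q M algSub :=
  hasseFun_mem_LRing_algSub haux hM

/-- The unit of level `q M` has algebraic expansions. -/
theorem coe_unitL_mem_algSub (P : CPlace q) :
    ((Toric.unitL haux hM P : LRing q M P.ring) : ℍ → ℂ) ∈ LRing q M algSub := by
  rw [Toric.unitL, MulMemClass.coe_mul, SubmonoidClass.coe_pow, coe_raiseL, coe_dilL]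
  exact mul_mem (pow_mem (raiseL M ⟨_, Lift.unitU_mem haux (goodRoot_algSub M)⟩).2 q)
    (dilL hM (zetaC_mem_algSub (q * M)) ⟨_, Lift.unitU_inv_mem haux (goodRoot_algSub M)⟩).2

end FermatAgent.BAD.AtP
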