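import Fermat.Agent.BAD.AtP.Class.LogZero
import Fermat.Agent.BAD.AtP.Eis.Psi
import Fermat.Agent.BAD.AtP.Eis.EFour
import Fermat.Agent.BAD.AtP.Geo.PointP

/-!
# The auxiliary form of weight twelve at a place over `3`

`E₄ Ψ²`: its residual series is that of `Ψ²`, and its residual function on the component at `∞`
is the Hasse function times a unit.
-/

set_option autoImplicit false

open UpperHalfPlane CongruenceSubgroup
open scoped MatrixGroups ModularForm
open ModularForm (E₄)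

noncomputable section

namespace FermatAgent.BAD.AtP

open FermatAgent.ES (BRing HasExp AuxLevel CPlace IsTwist GoodPoint discHom auxW zetaC)

/-- **The auxiliary form of weight twelve.** -/
theorem exists_aux_form [Fact (Nat.Prime 3)] (P : CPlace 3) {L M : ℕ} [NeZero M]
    (haux : AuxLevel M 2) (hM : M.Coprime 3) (h2L : 2 ∣ L) :
    ∃ (E : ℍ → ℂ) (B : BRing M P.ring) (c : PowerSeries P.ring),
      IsTwist (Gamma0 L) ((12 * 1 : ℕ) : ℤ) 1 E ∧ HasExp 1 E (c.map P.ring.subtype) ∧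
      (∀ e, IsAlgebraic ℚ ((PowerSeries.coeff e c : P.ring) : ℂ)) ∧ c.map P.res ≠ 0 ∧
      (∀ τ, E τ = (B : ℍ → ℂ) τ * auxW haux τ ^ 6) ∧
      (∀ ℓ : ℕ, ℓ.Prime → ¬ ℓ ∣ L * 3 → ∀ n : ℤ,
        heckeC ℓ (logTheta (HahnSeries.ofPowerSeries ℤ _ (c.map P.res))) n =
          ((ℓ : IsLocalRing.ResidueField P.ring) + 1) *
            (logTheta (HahnSeries.ofPowerSeries ℤ _ (c.map P.res))).coeff n) ∧
      ∀ (hP : P.HasCDVRs) (τ : ℍ) (hg : GoodPoint haux P.ring τ),
        ∃ w : PowerSeries (IsLocalRing.ResidueField P.ring), IsUnit w ∧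
          (discHom haux τ (P.goodRoot hM) hg B).map P.res =
            pointP haux hP hM hg (hasseL haux hM (P.goodRoot hM) goodRoot_zeta) * w := by
  obtain ⟨Ψ, cΨ, hΨ, hΨ0, hcΨ, halg, -, hres, hunit, heig⟩ := exists_psi P
  obtain ⟨u, hu, hu'⟩ := hunit M haux hM
  set e4 := ModularCurve.eisenstein4.map (Int.castRingHom P.ring)
  have he4 : HasExp 1 (E₄ : ℍ → ℂ) (e4.map P.ring.subtype) := by
    convert hasExp_eFour using 1
    ext i
    simp [e4]
  have hle : Gamma0 L ≤ Gamma0 2 := fun γ hγ => by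
    rw [Gamma0_mem, ZMod.intCast_zmod_eq_zero_iff_dvd] at hγ ⊢
    exact (Int.natCast_dvd_natCast.mpr h2L).trans hγ
  have h2 : IsTwist (Gamma0 2) ((12 * 1 : ℕ) : ℤ) 1 ((E₄ : ℍ → ℂ) * Ψ ^ 2) := by
    have h := (isTwist_eFour (Gamma0 2)).mul (hΨ.pow 2)
    rw [show (1 : Gamma0 2 →* ℂˣ) * 1 ^ 2 = 1 from MonoidHom.ext fun _ => by simp] at h
    norm_num at h ⊢
    exact h
  have hred : ((e4 * cΨ ^ 2).map P.res) = cΨ.map P.res ^ 2 := by
    rw [map_mul, map_pow, map_res_eisenstein4, one_mul]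
  refine ⟨(E₄ : ℍ → ℂ) * Ψ ^ 2, eFourB P haux hM * u ^ 2, e4 * cΨ ^ 2,
    ⟨h2.mdiff, fun γ => (h2.slash ⟨_, hle γ.2⟩).trans (funext fun τ => by simp), h2.bdd⟩,
    ?_, fun e => ?_, ?_, fun τ => ?_, fun ℓ hℓ hℓL n => ?_, fun hP τ hg => ?_⟩
  · rw [map_mul, map_pow]
    exact he4.mul (hcΨ.pow 2)
  · have hz : ∀ x : PowerSeries P.ring, x ∈ ({e4, cΨ} : Set (PowerSeries P.ring)) → ∀ i,
        ((PowerSeries.coeff i x : P.ring) : ℂ) ∈ Toric.algSub := by
      rintro x (rfl | rfl) i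
      · simp only [e4, PowerSeries.coeff_map]
        simp
      · exact Toric.mem_algSub.mpr (halg i)
    refine Toric.mem_algSub.mp ?_
    rw [pow_two, PowerSeries.coeff_mul, AddSubmonoidClass.coe_finsetSum]
    refine Toric.algSub.sum_mem fun x _ => ?_
    rw [MulMemClass.coe_mul]
    refine Toric.algSub.mul_mem (hz _ (Or.inl rfl) _) ?_
    rw [PowerSeries.coeff_mul, AddSubmonoidClass.coe_finsetSum]
    exact Toric.algSub.sum_mem fun y _ => by
      rw [MulMemClass.coe_mul]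
      exact Toric.algSub.mul_mem (hz _ (Or.inr rfl) _) (hz _ (Or.inr rfl) _)
  · rw [hred]
    exact pow_ne_zero 2 hres
  · have h0 := ES.auxW_ne_zero haux τ
    simp only [Pi.mul_apply, Pi.pow_apply, Subring.coe_mul, SubmonoidClass.coe_pow, coe_eFourB, hu']
    field_simp
  · have hℓ2 : ℓ ≠ 2 := fun h => hℓL (h ▸ h2L.mul_right 3)
    have hne : HahnSeries.ofPowerSeries ℤ (IsLocalRing.ResidueField P.ring) (cΨ.map P.res) ≠ 0 :=
      (map_ne_zero_iff _ HahnSeries.ofPowerSeries_injective).mpr hres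
    rw [hred, map_pow, logTheta_pow hne, heckeC_natCast_mul, coeff_natCast_mul,
      show logTheta (HahnSeries.ofPowerSeries ℤ _ (cΨ.map P.res)) =
        thetaLog (HahnSeries.ofPowerSeries ℤ _ (cΨ.map P.res)) from rfl, heig ℓ hℓ hℓ2 n]
    ring
  · refine ⟨((discHom haux τ (P.goodRoot hM) hg u).map P.res) ^ 2,
      ((hu.map (discHom haux τ (P.goodRoot hM) hg)).map (PowerSeries.map P.res)).pow 2, ?_⟩
    have h1 := pointP_eq_zero haux hP hM hg (eFour_sub_hasseL_mem P haux hM)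
    rw [map_sub, sub_eq_zero, pointP_raiseL] at h1
    rw [map_mul, map_mul, map_pow, map_pow, h1]

end FermatAgent.BAD.AtP
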