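import Fermat.Agent.BAD.Toric.BalSer

/-!
# The normalising constant

An algebraic constant making the series of `v ^ q` integral with a unit coefficient.
-/

set_option autoImplicit false

open UpperHalfPlane CongruenceSubgroup IsLocalRing
open scoped MatrixGroups

noncomputable section

namespace FermatAgent.BAD.AtP

open FermatAgent.BAD.Toric (Normed HasContent coeff_C_mul' normed_expandL normed_wSer algSub
  mem_algSub serIn_algSub_of_coeff)
open FermatAgent.ES (BSub SerIn HasExp HasLExp lexp lexp_eq hasLExp_lexp act AuxLevel CPlace auxW)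

variable {q M : ℕ} [hq : Fact q.Prime] [NeZero M] (haux : AuxLevel M 2) (hM : M.Coprime q)
  {P : CPlace q} {v : ℍ → ℂ} {c : PowerSeries ℂ}

include hM in
/-- **The normalising constant.** -/
theorem exists_normalising_const (hu : (fun τ => v τ / auxW haux τ ^ 2) ^ q ∈ LSub q M)
    (hc : HasExp 1 v c) (halg : ∀ e, IsAlgebraic ℚ (PowerSeries.coeff e c))
    (hcont : HasContent P (lexp (q * M) 1 ((fun τ => v τ / auxW haux τ ^ 2) ^ q))) :
    ∃ (C : ℂ) (cQ : PowerSeries P.ring), C ∈ algSub ∧ C ≠ 0 ∧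
      HasExp 1 (fun τ => C * v τ ^ q) (cQ.map P.ring.subtype) ∧ cQ.map P.res ≠ 0 ∧
      Normed P (lexp (q * M) 1 ((fun _ => C) * (fun τ => v τ / auxW haux τ ^ 2) ^ q)) := by
  set u : ℍ → ℂ := (fun τ => v τ / auxW haux τ ^ 2) ^ q
  set W := expandL q (wSer haux 1) ^ (2 * q)
  set s := HahnSeries.ofPowerSeries ℤ ℂ
    (PowerSeries.expand (q * M) (NeZero.ne (q * M)) (c ^ q))
  have hW : Normed P W := (normed_expandL (normed_wSer haux hM 1)).pow _
  have hid : lexp (q * M) 1 u * W = s := by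
    have hwl : HasLExp M (auxW haux) (wSer haux 1) := by
      have h := hasLExp_auxW_conj haux (1 : SL(2, ℤ))
      rwa [show ES.dif M (ES.vmul M (ES.refB haux.dvd) 1) (ES.vmul M (ES.refA haux.dvd) 1) =
        auxW haux by rw [ES.vmul_one, ES.vmul_one]; rfl] at h
    have hul := hasLExp_lexp hu.1 1
    rw [ES.act_one] at hul
    refine (hul.mul ((hasLExp_raise q hwl).pow (2 * q))).series_unique
      ((HasLExp.of_exp (hasExp_widen (NeZero.ne (q * M)) (hc.pow q))).congr_fun fun τ => ?_)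
    have hd := ES.auxW_ne_zero haux τ
    simp only [u, Pi.mul_apply, Pi.pow_apply, div_pow, ← pow_mul]
    field_simp
  obtain ⟨a, ha, hN⟩ : HasContent P s := hid ▸ hcont.mul hW.hasContent
  obtain ⟨j, hj⟩ := hN.2
  rw [coeff_C_mul'] at hj
  obtain ⟨e, he⟩ : ∃ e : ℕ, j = ((q * M * e : ℕ) : ℤ) := by
    by_contra hne
    push Not at hne
    have h0 : s.coeff j = 0 := by
      rcases le_or_gt 0 j with h | h
      · lift j to ℕ using h
        rw [HahnSeries.ofPowerSeries_apply_coeff, PowerSeries.coeff_expand_of_not_dvd]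
        rintro ⟨d, hd⟩
        exact hne d (by rw [hd])
      · exact ModularCurve.ofPowerSeries_coeff_of_neg _ h
    simp [h0] at hj
  subst he
  rw [HahnSeries.ofPowerSeries_apply_coeff, PowerSeries.coeff_expand_mul] at hj
  set x := PowerSeries.coeff e (c ^ q)
  have hx : x ≠ 0 := fun h => by simp [h] at hj
  have hxalg : x ∈ algSub := by
    have h := ((serIn_algSub_of_coeff halg).pow q) (e : ℤ)
    rwa [← map_pow, HahnSeries.ofPowerSeries_apply_coeff] at h
  have habs : P.abv (x⁻¹ / a) = 1 := by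
    rw [map_div₀, map_inv₀, div_eq_mul_inv, ← mul_inv, mul_comm, ← map_mul, hj, inv_one]
  have hNs : Normed P (HahnSeries.C x⁻¹ * s) := by
    have h := hN.C_mul habs
    rwa [← mul_assoc, ← map_mul, div_mul_cancel₀ _ ha] at h
  have hmem : ∀ i, x⁻¹ * PowerSeries.coeff i (c ^ q) ∈ P.ring := fun i => by
    have h := hNs.1 ((q * M * i : ℕ) : ℤ)
    rwa [coeff_C_mul', HahnSeries.ofPowerSeries_apply_coeff, PowerSeries.coeff_expand_mul] at h
  set cQ : PowerSeries P.ring := PowerSeries.mk fun i => ⟨_, hmem i⟩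
  have hcQ : cQ.map P.ring.subtype = PowerSeries.C x⁻¹ * c ^ q := by
    ext i; simp [cQ, PowerSeries.coeff_C_mul]
  refine ⟨x⁻¹, cQ, mem_algSub.mpr (mem_algSub.mp hxalg).inv, inv_ne_zero hx, ?_, ?_, ?_⟩
  · rw [hcQ]
    exact ((hc.pow q).smul x⁻¹).congr_fun fun τ => by simp
  · intro h0
    have h1 := congrArg (PowerSeries.coeff e) h0
    rw [PowerSeries.coeff_map, map_zero, P.res_eq_zero_iff] at h1
    refine h1.ne ?_
    have e1 : ((PowerSeries.coeff e cQ : P.ring) : ℂ) = x⁻¹ * x := by simp [cQ, x]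
    rw [e1, inv_mul_cancel₀ hx, map_one]
  · have e2 : lexp (q * M) 1 ((fun _ => x⁻¹) * u) = HahnSeries.C x⁻¹ * lexp (q * M) 1 u := by
      refine lexp_eq (((HasLExp.const x⁻¹).mul (hasLExp_lexp hu.1 1)).congr_fun fun τ => ?_)
      rfl
    rw [e2]
    refine (hcont.C_mul (inv_ne_zero hx)).normed_of_mul hW ?_
    rwa [mul_left_comm, mul_comm W, hid]

end FermatAgent.BAD.AtP
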