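import Fermat.Agent.BAD.AtP.Class.LogZero
import Fermat.Agent.BAD.AtP.Class.Eigen

/-!
# Pairs of forms attached to a character of level `L q`

The data from which the logarithmic derivative of the residual series of a rational character
is shown to vanish.
-/

set_option autoImplicit false

noncomputable section

open UpperHalfPlane CongruenceSubgroup
open scoped MatrixGroups

namespace FermatAgent.BAD.AtP

open FermatAgent.ES (HasExp CPlace IsTwist parGroup)

variable {q : ℕ} [Fact q.Prime] (P : CPlace q) (L : ℕ) [NeZero L]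

/-- The forms attached to a character `x`. -/
structure KummerForms (x : parGroup (Gamma0 (L * q)) q) where
  /-- The form with multiplier `x`. -/
  v : ℍ → ℂ
  /-- The normalising constant. -/
  C : ℂ
  /-- The normalised series of `v ^ q`. -/
  cQ : PowerSeries P.ring
  twist : IsTwist (Gamma0 (L * q)) ((2 * 2 : ℕ) : ℤ) (x : Gamma0 (L * q) →* ℂˣ) v
  v_ne : v ≠ 0
  exp : HasExp 1 (fun τ => C * v τ ^ q) (cQ.map P.ring.subtype)
  res_ne : cQ.map P.res ≠ 0
  /-- The exponent. -/
  k0 : ℕ
  k0_ne : (k0 : IsLocalRing.ResidueField P.ring) ≠ 0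
  /-- The form used away from the cusps. -/
  fin : LevelForm P L (resSer P cQ ^ k0)
  fin_div : DivAt P L fin.fn fin.wt (fun o => 0 ≤ o)
  fin_eigen : ∀ l : ℕ, l.Prime → ¬ l ∣ L * q → ∀ n : ℤ,
    heckeC l (logTheta fin.factor) n =
      ((l : IsLocalRing.ResidueField P.ring) + 1) * (logTheta fin.factor).coeff n
  /-- The form used at the cusps. -/
  cusp : LevelForm P L (resSer P cQ ^ k0)
  cusp_wt : q ∣ cusp.wt
  cusp_div : DivAt P L cusp.fn cusp.wt (fun o => o < 0)
  cusp_log : logTheta cusp.factor = 0

end FermatAgent.BAD.AtP
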