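import Fermat.Agent.BAD.AtP.Forms.Main
import Fermat.Agent.BAD.AtP.Forms.Aux3

/-!
# Every rational character has forms attached

For `q = 3` an auxiliary form of weight twelve balances the multiplicities at the nodes.
-/

set_option autoImplicit false

open UpperHalfPlane CongruenceSubgroup IsLocalRing
open scoped MatrixGroups

noncomputable section

namespace FermatAgent.BAD.AtP

open FermatAgent.ES (AuxLevel CPlace IsTwist parGroup auxW discHom conjChar goodLevel_Gamma0)
open FermatAgent.BAD.TwoP (FixK)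
open FermatAgent.BAD (conjC)

/-- A multiple of `q` shifted by one is divisible by four. -/
theorem exists_four_inv {q : ℕ} [hq : Fact q.Prime] (hq2 : q ≠ 2) : ∃ t : ℕ, q ∣ 4 * t + 1 := by
  have h := Nat.odd_iff.mp (hq.out.odd_of_ne_two hq2)
  rcases (by omega : q % 4 = 1 ∨ q % 4 = 3) with h4 | h4
  · exact ⟨q / 4, 1, by omega⟩
  · exact ⟨3 * q / 4, 3, by omega⟩

/-- An integer prime to `q` is non-zero in the residue field of a place over `q`. -/
theorem natCast_res_ne_zero {q : ℕ} [hq : Fact q.Prime] (P : CPlace q) {k : ℕ} (h : ¬ q ∣ k) :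
    (k : ResidueField P.ring) ≠ 0 := by
  have := ES.charP_residueField hq.out P
  exact fun h0 => h ((CharP.cast_eq_zero_iff _ q k).1 h0)

/-- **Rational characters have forms attached.** -/
theorem hasKummerForms :
    ∀ (q : ℕ) [Fact q.Prime] (L : ℕ) [NeZero L] [NeZero (L * q)], q ≠ 2 → L.Coprime q →
      (q = 3 → 2 ∣ L) → ∀ (Φ : ℂ ≃+* PadicAlgCl q) (x : parGroup (Gamma0 (L * q)) q),
      (∀ s, FixK Φ 2 s → conjChar (goodLevel_Gamma0 (L * q)) (conjC Φ s) x = x) →
      Nonempty (KummerForms (CPlace.ofEquiv Φ) L x) := by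
  intro q hq L _ _ hq2 hLq h3 Φ x hfix
  have : NeZero (4 * L) := ⟨mul_ne_zero (by norm_num) (NeZero.ne L)⟩
  have hM : (4 * L).Coprime q := Nat.Coprime.mul_left
    (Nat.Coprime.pow_left 2 ((Nat.coprime_primes Nat.prime_two hq.out).2 hq2.symm)) hLq
  have haux : AuxLevel (4 * L) 2 :=
    ⟨Or.inl rfl, ⟨2 * L, by ring⟩, by have := NeZero.pos L; omega⟩
  have hLM : L ∣ 4 * L := dvd_mul_left L 4
  obtain ⟨D⟩ := exists_kummerData Φ haux hM hLM hq2 x hfix
  have hN : q ≠ 3 ∨ 2 ∣ L := Classical.or_iff_not_imp_left.mpr fun h => h3 (not_not.mp h)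
  by_cases h : q = 3
  · subst h
    have hk : 1 * 3 = 3 * 1 := rfl
    have hea : D.e * 1 ≤ 6 * D.e := by omega
    have hea' : D.e * 1 ≤ 6 * (1 + 3 * D.e) := by omega
    obtain ⟨K, hKw, hKf, hK1⟩ := exists_levelForm Φ D hLM hq2 hk hea
    obtain ⟨K', hKw', hKf', hK1'⟩ := exists_levelForm Φ D hLM hq2 hk hea'
    obtain ⟨E, B, c, hE, hc, halg, hc0, hEB, heig, hB⟩ :=
      exists_aux_form (CPlace.ofEquiv Φ) haux hM (h3 rfl)
    refine ⟨{
      v := D.v, C := D.C, cQ := D.cQ, twist := D.twist, v_ne := D.v_ne, exp := D.exp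
      res_ne := D.res_ne
      k0 := 1
      k0_ne := natCast_res_ne_zero _ (by norm_num)
      fin := K.mulPow hE hc halg hc0 D.m
      fin_div := ?_
      fin_eigen := fun l hl hlN n => ?_
      cusp := K'
      cusp_wt := ?_
      cusp_div := ?_
      cusp_log := by rw [hK1', logTheta_one] }⟩
    · show DivAt _ L (K.fn * E ^ D.m) (K.wt + D.m) _
      rw [hKf, hKw]
      refine divAt_fin Φ D hLM hq2 hk hea hN (B := B ^ D.m) (δ := D.m) ?_ (fun τ => ?_)
        (fun hP τ hg => ?_) ?_
      · have h := hE.pow D.m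
        rw [show ((D.m : ℕ) : ℤ) * ((12 * 1 : ℕ) : ℤ) = ((12 * D.m : ℕ) : ℤ) by push_cast; ring]
          at h
        convert h using 1
        exact MonoidHom.ext fun γ => by simp [MonoidHom.pow_apply]
      · show E τ ^ D.m = (B : ℍ → ℂ) τ ^ D.m * _
        rw [hEB, mul_pow, ← pow_mul]
      · obtain ⟨w, hw, hBw⟩ := hB hP τ hg
        exact ⟨w ^ D.m, hw.pow _, by rw [map_pow, map_pow, hBw, mul_pow]⟩
      · exact ⟨(D.m : ℤ) + 4 * D.e, by push_cast; ring⟩
    · show heckeC l (logTheta (K.factor * resSer _ c ^ D.m)) n = _ * _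
      have hne : resSer (CPlace.ofEquiv Φ) c ≠ 0 :=
        (map_ne_zero_iff _ HahnSeries.ofPowerSeries_injective).mpr hc0
      rw [show (K.mulPow hE hc halg hc0 D.m).factor = K.factor * resSer _ c ^ D.m from rfl, hK1,
        one_mul, logTheta_pow hne, heckeC_natCast_mul, coeff_natCast_mul, resSer, heig l hl hlN n]
      ring
    · rw [hKw', kumWt]
      exact ⟨1 + 2 * D.e, by ring⟩
    · rw [hKf', hKw']
      exact divAt_cusp Φ D hLM hq2 hk hea' ⟨1 + 2 * D.e, by rw [kumWt]; ring⟩
  · obtain ⟨t, ht⟩ := exists_four_inv hq2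
    have hk : 3 * q = 3 * q := rfl
    have hq0 := hq.out.two_le
    have hea : D.e * 3 ≤ 6 * (t * D.m + q * D.e) := by nlinarith
    have hea' : D.e * 3 ≤ 6 * (q * D.e) := by nlinarith
    obtain ⟨K, hKw, hKf, hK1⟩ := exists_levelForm Φ D hLM hq2 hk hea
    obtain ⟨K', hKw', hKf', hK1'⟩ := exists_levelForm Φ D hLM hq2 hk hea'
    refine ⟨{
      v := D.v, C := D.C, cQ := D.cQ, twist := D.twist, v_ne := D.v_ne, exp := D.exp
      res_ne := D.res_ne
      k0 := 3
      k0_ne := natCast_res_ne_zero _ fun hd => h ((Nat.prime_dvd_prime_iff_eq hq.out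
        Nat.prime_three).mp hd)
      fin := K
      fin_div := ?_
      fin_eigen := fun l hl hlN n => ?_
      cusp := K'
      cusp_wt := ?_
      cusp_div := ?_
      cusp_log := by rw [hK1', logTheta_one] }⟩
    · rw [hKf, hKw]
      have h1 := divAt_fin Φ D hLM hq2 hk hea hN (E := 1) (B := 1) (b := 0) (δ := 0) ?_
        (fun τ => by simp) (fun hP τ hg => ⟨1, isUnit_one, by simp⟩) ?_
      · rwa [mul_one, add_zero] at h1
      · have h2 := (isTwist_eFour (Gamma0 L)).pow 0
        simp only [pow_zero, Nat.cast_zero, zero_mul] at h2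
        convert h2 using 1
        · simp
        · exact MonoidHom.ext fun γ => by simp [MonoidHom.pow_apply]
      · obtain ⟨s, hs⟩ := ht
        refine ⟨3 * ((D.m : ℤ) * s + 4 * D.e), ?_⟩
        have hs' : (4 : ℤ) * t + 1 = q * s := by exact_mod_cast hs
        push_cast
        linear_combination 3 * (D.m : ℤ) * hs'
    · rw [hK1, logTheta_one]
      simp [heckeC]
    · rw [hKw', kumWt]
      exact ⟨1 + D.e * (q - 1), by ring⟩
    · rw [hKf', hKw']
      exact divAt_cusp Φ D hLM hq2 hk hea' ⟨1 + D.e * (q - 1), by rw [kumWt]; ring⟩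

end FermatAgent.BAD.AtP
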