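import Fermat.Agent.BAD.AtP.Forms.Exists
import Fermat.Agent.BAD.AtP.Eis.Series
import Fermat.Agent.BAD.AtP.Def

/-!
# Eigenclasses are trivial at `∞`, from the forms attached to rational characters

With the two level forms attached to every rational character, the logarithmic derivative of the
residual series vanishes, so every eigenclass of level `L p` is trivial at `∞`.
-/

set_option autoImplicit false

open UpperHalfPlane CongruenceSubgroup
open scoped MatrixGroups Matrix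

noncomputable section

namespace FermatAgent.BAD.AtP

open FermatAgent.ES (CPlace parGroup conjChar goodLevel_Gamma0 GQ embC)
open FermatAgent.PSEMI (cv Cgr matU TrivVec stableCoeffs)
open FermatAgent.BAD.TwoP (FixK FixCond)
open FermatAgent.BAD (conjC map_conjC)
open FermatAgent.Period (parRank)
open CFT.Local (Gal')

/-- A fixed vector gives a character fixed by the automorphisms fixing the coefficient field. -/
theorem conjChar_cv_eq {p N : ℕ} [Fact p.Prime] [NeZero N] (Φ : ℂ ≃+* PadicAlgCl p)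
    (z : Fin (parRank (Gamma0 N)) → ℤ_[p])
    (hfix : ∀ g : GQ, FixCond p Φ g → Cgr 1 (ES.galMat p N g *ᵥ z) z)
    (s : Gal' p) (hs : FixK Φ 2 s) :
    conjChar (goodLevel_Gamma0 N) (conjC Φ s) (cv p 1 z) = cv p 1 z := by
  let : Algebra (AlgebraicClosure ℚ) ℂ := embC.toRingHom.toAlgebra
  have : IsScalarTower ℚ (AlgebraicClosure ℚ) ℂ :=
    IsScalarTower.of_algebraMap_eq fun r => (embC.commutes r).symm
  set τ : ℂ ≃ₐ[ℚ] ℂ := AlgEquiv.ofRingEquiv (f := conjC Φ s) fun r => by simp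
  set g := τ.restrictNormal (AlgebraicClosure ℚ)
  have hg : ∀ x, conjC Φ s (embC x) = embC (g x) := fun x =>
    (τ.restrictNormal_commutes (AlgebraicClosure ℚ) x).symm
  have h1 := hfix g ⟨s, fun x => by rw [← map_conjC Φ s, hg], hs⟩
  rw [← PSEMI.galChar_apply_of_ext (p ^ 1) hg, ← PSEMI.cv_galMat]
  exact PSEMI.cv_eq_of_cgr h1

/-- **Eigenclasses are trivial at `∞`.** Classes of level `L p` which are eigenvectors of a non
Eisenstein residual system absent at level `L`, and which are fixed by the automorphisms fixing the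
coefficient field, are trivial at `∞`. -/
theorem trivEigen :
    ∀ (p : ℕ) [Fact p.Prime] (L : ℕ) [NeZero L] [NeZero (L * p)],
    p ≠ 2 → L.Coprime p → (p = 3 → 2 ∣ L) →
    ∀ (E : ℕ), E ≠ 0 → ∀ (b : ℕ → ℕ), NoLow p L E b →
      (∃ ℓ : ℕ, ℓ.Prime ∧ ¬ ℓ ∣ E * (L * p) ∧ (b ℓ : ZMod p) ≠ (ℓ : ZMod p) + 1) →
    ∀ (Φ : ℂ ≃+* PadicAlgCl p) (z : Fin (parRank (Gamma0 (L * p))) → ℤ_[p]) (a : ℤ_[p]),
      a * a = 1 → Cgr 1 (matU p (L * p) *ᵥ z) (a • z) →
      (∀ (ℓ : ℕ) (hℓ : ℓ.Prime), ¬ ℓ ∣ E * (L * p) →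
        Cgr 1 (matT p (L * p) ℓ hℓ *ᵥ z) ((b ℓ : ℤ_[p]) • z)) →
      (∀ g : GQ, FixCond p Φ g → Cgr 1 (ES.galMat p (L * p) g *ᵥ z) z) →
      TrivVec (stableCoeffs Φ) 1 z := by
  intro p _ L _ _ hp2 hLp hp3 E hE b hlow hne Φ z a ha hU hT hfix
  obtain ⟨l0, hl0, hl0S, hl0b⟩ := hne
  have : NeZero (p ^ 1) := ⟨by simpa using (Fact.out : p.Prime).ne_zero⟩
  -- the character, as one of exponent `p`
  let x : parGroup (Gamma0 (L * p)) p :=
    ⟨(cv p 1 z : Gamma0 (L * p) →* ℂˣ), by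
      have h := (cv p 1 z).2
      simpa only [pow_one] using h⟩
  have hx : ∀ s, FixK Φ 2 s → conjChar (goodLevel_Gamma0 (L * p)) (conjC Φ s) x = x := by
    intro s hs
    refine ES.conjChar_eq (goodLevel_Gamma0 (L * p)) ?_
    have h := ES.conjChar_spec (goodLevel_Gamma0 (L * p)) (conjC Φ s) (cv p 1 z)
    rw [conjChar_cv_eq Φ z hfix s hs] at h
    exact h
  obtain ⟨K⟩ := hasKummerForms p L hp2 hLp hp3 Φ x hx
  have hlN : ∀ l : ℕ, ¬ l ∣ E * (L * p) → ¬ l ∣ L * p := fun l h hd => h (hd.mul_left E)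
  have hs0 : resSer (CPlace.ofEquiv Φ) K.cQ ≠ 0 :=
    (map_ne_zero_iff _ HahnSeries.ofPowerSeries_injective).2 K.res_ne
  have hlog := logTheta_class_eq_zero (CPlace.ofEquiv Φ) hLp hlow hl0 hl0S hl0b hs0
    (fun l hl hlS n => eigen_log hp2 hLp (z := z) K.twist K.exp K.res_ne l hl (hlN l hlS) (b l)
      (hT l hl hlS) n)
    K.k0_ne K.fin K.cusp K.cusp_wt (K.fin_eigen l0 hl0 (hlN l0 hl0S)) K.cusp_log
    (fun n => by
      have h := heckeC_thetaLog_delta
        (IsLocalRing.ResidueField (CPlace.ofEquiv Φ).ring) hl0 n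
      rw [Lift.coeffMap_deltaZ] at h
      exact h)
    K.fin_div K.cusp_div
  exact trivVec_of_log_zero hp2 hLp (z := z) K.twist K.exp K.res_ne K.v_ne a ha hU hlog

end FermatAgent.BAD.AtP

end
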