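import Fermat.Agent.BAD.AtP.Forms.Orders
import Fermat.Agent.BAD.AtP.Forms.Def

/-!
# The forms attached to a rational character

The traces of powers of the normalised Kummer function, with residual orders divisible by `q` at
the cusps or, after multiplication by an auxiliary form, away from them.
-/

set_option autoImplicit false

open AlgebraicCurve UpperHalfPlane CongruenceSubgroup IsLocalRing
open scoped MatrixGroups

noncomputable section

namespace FermatAgent.BAD.AtP

open FermatAgent.BAD.TwoP (resInf)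
open FermatAgent.BAD.Toric (algSub unitL)
open FermatAgent.ES (BRing HasExp AuxLevel CPlace GoodPoint IsTwist parGroup auxW discHom)

variable {q M L : ℕ} [hq : Fact q.Prime] [NeZero M] [NeZero L]

section Product

variable {P : CPlace q} {s : LaurentSeries (ResidueField P.ring)}

/-- Multiplication by a power of a form of weight twelve. -/
def LevelForm.mulPow (K : LevelForm P L s) {E : ℍ → ℂ} {c : PowerSeries P.ring}
    (hE : IsTwist (Gamma0 L) ((12 * 1 : ℕ) : ℤ) 1 E) (hc : HasExp 1 E (c.map P.ring.subtype))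
    (halg : ∀ e, IsAlgebraic ℚ ((PowerSeries.coeff e c : P.ring) : ℂ)) (hc0 : c.map P.res ≠ 0)
    (b : ℕ) : LevelForm P L s where
  wt := K.wt + b
  fn := K.fn * E ^ b
  ser := K.ser * c ^ b
  factor := K.factor * resSer P c ^ b
  twist := by
    have h := K.twist.mul (hE.pow b)
    rw [show ((12 * K.wt : ℕ) : ℤ) + (b : ℤ) * ((12 * 1 : ℕ) : ℤ) = ((12 * (K.wt + b) : ℕ) : ℤ) by
      push_cast; ring] at h
    convert h using 1
    exact MonoidHom.ext fun γ => by simp [MonoidHom.pow_apply]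
  exp := by
    rw [map_mul, map_pow]
    exact K.exp.mul (hc.pow b)
  alg e := by
    have halg' : ∀ (d : PowerSeries P.ring),
        (∀ i, IsAlgebraic ℚ ((PowerSeries.coeff i d : P.ring) : ℂ)) →
        ES.SerIn algSub (HahnSeries.ofPowerSeries ℤ ℂ (d.map P.ring.subtype)) := fun d hd =>
      Toric.serIn_algSub_of_coeff fun i => by rw [PowerSeries.coeff_map]; exact hd i
    have h := ((halg' _ K.alg).mul ((halg' _ halg).pow b)) (e : ℤ)
    rw [← map_pow, ← map_mul, ← map_pow, ← map_mul, HahnSeries.ofPowerSeries_apply_coeff,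
      PowerSeries.coeff_map] at h
    exact Toric.mem_algSub.mp h
  factor_ne := mul_ne_zero K.factor_ne
    (pow_ne_zero _ ((map_ne_zero_iff _ HahnSeries.ofPowerSeries_injective).mpr hc0))
  res_eq := by
    rw [← mul_assoc, ← K.res_eq, resSer, resSer, resSer, map_mul, map_mul, map_pow, map_pow]

end Product

variable (Φ : ℂ ≃+* PadicAlgCl q) {haux : AuxLevel M 2} {hM : M.Coprime q}
  {x : parGroup (Gamma0 (L * q)) q}

set_option hygiene false in
local notation "PP" => CPlace.ofEquiv Φ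

variable (D : KummerData Φ haux hM x) (hLM : L ∣ M) (hq2 : q ≠ 2)
  {k0 r0 a : ℕ} (hk : k0 * q = 3 * r0) (hea : D.e * k0 ≤ 6 * a)

omit [NeZero L] in
include hLM hq2 hk hea in
/-- The traced form is a level form for the power of the residual series, without auxiliary
factor. -/
theorem exists_levelForm :
    ∃ K : LevelForm PP L (resSer PP D.cQ ^ k0), K.wt = kumWt q r0 a ∧
      K.fn = kumF q M D.C D.v k0 r0 a ∧ K.factor = 1 := by
  obtain ⟨c, hc, halg, hres⟩ := exists_kumF_ser (L := L) haux hM hq2 D.coe_X hk hea D.exp hLM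
    D.twist (D.alg k0 a) (goodRoot_algSub M)
  exact ⟨⟨_, _, c, 1, isTwist_kumF hM hk hLM D.twist, hc, halg, one_ne_zero,
    by rw [mul_one]; exact hres⟩, rfl, rfl, rfl⟩

include hLM hq2 hk hea in
/-- **The cusps.** -/
theorem divAt_cusp (hqw : q ∣ kumWt q r0 a) :
    DivAt PP L (kumF q M D.C D.v k0 r0 a) (kumWt q r0 a) (fun o => o < 0) :=
  fun _ _ hsA hloc hgb hgb0 _ hQ =>
    dvd_ord_cusp_residual PP haux hLM hM (isTwist_kumF hM hk hLM D.twist) hsA hloc hgb hgb0 hqw
      (fun _ _ hw _ hd _ hi =>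
        dvd_cusp_kumF haux hM hq2 D.coe_X hk hea hLM D.twist D.cusp_ord hw hd hi) hQ

include hLM hq2 hk hea in
/-- **Away from the cusps.** -/
theorem divAt_fin (h3 : q ≠ 3 ∨ 2 ∣ L) {E : ℍ → ℂ} {B : BRing M (PP).ring} {b δ : ℕ}
    (hE : IsTwist (Gamma0 L) ((12 * b : ℕ) : ℤ) 1 E)
    (hEB : ∀ τ, E τ = (B : ℍ → ℂ) τ * auxW haux τ ^ (6 * b))
    (hB : ∀ (hP : (PP).HasCDVRs) (τ : ℍ) (hg : GoodPoint haux (PP).ring τ),
      ∃ w, IsUnit w ∧ (discHom haux τ ((PP).goodRoot hM) hg B).map (PP).res =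
        pointP haux hP hM hg (hasseL haux hM ((PP).goodRoot hM) goodRoot_zeta) ^ δ * w)
    (hcond : (q : ℤ) ∣ (k0 : ℤ) * D.m + 2 * (6 * a + δ : ℕ)) :
    DivAt PP L (kumF q M D.C D.v k0 r0 a * E) (kumWt q r0 a + b) (fun o => 0 ≤ o) := by
  intro sA gb hsA hloc hgb hgb0 Q hQ
  have hP := ES.hasCDVRs_ofEquiv Φ
  have hF : IsTwist (Gamma0 L) ((12 * (kumWt q r0 a + b) : ℕ) : ℤ) 1
      (kumF q M D.C D.v k0 r0 a * E) := by
    have h := (isTwist_kumF (L := L) (a := a) hM hk hLM D.twist (C := D.C)).mul hE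
    rw [show ((12 * kumWt q r0 a : ℕ) : ℤ) + ((12 * b : ℕ) : ℤ) =
      ((12 * (kumWt q r0 a + b) : ℕ) : ℤ) by push_cast; ring] at h
    convert h using 1
    exact MonoidHom.ext fun γ => by simp
  refine dvd_ord_finite_residual PP hLM hM haux hF hsA hloc hgb hgb0 (fun G hG τ hg o ho => ?_)
    hq2 h3 hQ
  have e : G = kumG haux hM D.X D.e k0 a * B := by
    refine Subtype.ext (hG.trans (funext fun τ => ?_))
    have hW := ES.auxW_ne_zero haux τ
    simp only [Pi.mul_apply, hEB]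
    rw [kumF_eq haux hM D.coe_X hk hea]
    show (kumG haux hM D.X D.e k0 a : ℍ → ℂ) τ * auxW haux τ ^ (6 * kumWt q r0 a) *
      ((B : ℍ → ℂ) τ * auxW haux τ ^ (6 * b)) / auxW haux τ ^ (6 * (kumWt q r0 a + b)) =
        (kumG haux hM D.X D.e k0 a : ℍ → ℂ) τ * (B : ℍ → ℂ) τ
    rw [mul_add 6, pow_add]
    field_simp
  obtain ⟨i, h, y, hy, hh, hdiv, hcase⟩ := D.point_ord hP τ hg
  obtain ⟨w, hw, hBw⟩ := hB hP τ hg
  rw [e, map_mul, map_mul, hBw, discHom_kumG haux hM hq2 hP hg, kumY, map_mul, map_pow, map_pow,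
    PowerSeries.order_mul, PowerSeries.order_mul, PowerSeries.order_mul, PowerSeries.order_pow,
    PowerSeries.order_pow, PowerSeries.order_pow, hy, hh, PowerSeries.order_zero_of_unit hw,
    add_zero] at ho
  simp only [nsmul_eq_mul] at ho
  norm_cast at ho
  rw [← Int.natCast_dvd_natCast]
  obtain ⟨s, hs⟩ := hdiv
  subst ho
  push_cast at hcond ⊢
  rw [Nat.cast_sub hea]
  push_cast
  rcases hcase with ⟨rfl, t, rfl⟩ | ⟨rfl, t, ht⟩
  · refine ⟨k0 * (s + t), ?_⟩
    push_cast at hs ⊢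
    linear_combination (k0 : ℤ) * hs
  · obtain ⟨d, hd⟩ := hcond
    refine ⟨k0 * (s + t) + d, ?_⟩
    push_cast at hs ⊢
    linear_combination (k0 : ℤ) * hs + (k0 : ℤ) * ht + hd

end FermatAgent.BAD.AtP
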