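import Fermat.Agent.BAD.AtP.Forms.Trace
import Fermat.Agent.BAD.AtP.Forms.Alg
import Fermat.Agent.BAD.AtP.Forms.Const
import Fermat.Agent.BAD.AtP.Geo.Assemble

/-!
# The normalised Kummer function of a rational character

Its residual orders at the points of the place and at the cusps over `∞`.
-/

set_option autoImplicit false

open UpperHalfPlane CongruenceSubgroup IsLocalRing
open scoped MatrixGroups

noncomputable section

namespace FermatAgent.BAD.AtP

open FermatAgent.BAD.TwoP (FixK oRing oRing_le isCDVR_oRing resInf resInf_constL)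
open FermatAgent.BAD.Toric (Normed algSub normed_inf_of_one unitL)
open FermatAgent.ES (BRing HasExp zetaC AuxLevel CPlace GoodPoint IsTwist parGroup conjChar
  goodLevel_Gamma0 auxW)
open CFT.Local (Gal')

variable {q M L : ℕ} [hq : Fact q.Prime] [NeZero M] [NeZero L] (Φ : ℂ ≃+* PadicAlgCl q)
  (haux : AuxLevel M 2) (hM : M.Coprime q)

set_option hygiene false in
local notation "PP" => CPlace.ofEquiv Φ

set_option hygiene false in
local notation "HP" => hasseL haux hM ((CPlace.ofEquiv Φ).goodRoot hM)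
  (goodRoot_zeta (P := CPlace.ofEquiv Φ))

/-- The Kummer data of a character. -/
structure KummerData (x : parGroup (Gamma0 (L * q)) q) where
  /-- The form. -/
  v : ℍ → ℂ
  /-- The normalising constant. -/
  C : ℂ
  /-- The normalised series. -/
  cQ : PowerSeries (PP).ring
  /-- The exponent of `hasseL`. -/
  e : ℕ
  /-- The integral function `H ^ e C (v / W ^ 2) ^ q`. -/
  X : LRing q M (PP).ring
  /-- The residual order at the nodes. -/
  m : ℕ
  twist : IsTwist (Gamma0 (L * q)) ((2 * 2 : ℕ) : ℤ) (x : Gamma0 (L * q) →* ℂˣ) v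
  v_ne : v ≠ 0
  exp : HasExp 1 (fun τ => C * v τ ^ q) (cQ.map (PP).ring.subtype)
  res_ne : cQ.map (PP).res ≠ 0
  coe_X : (X : ℍ → ℂ) = (HP : LRing q M (PP).ring) ^ e *
    ((fun _ => C) * (fun τ => v τ / auxW haux τ ^ 2) ^ q : ℍ → ℂ)
  alg : ∀ k0 a : ℕ, ((kumY haux hM X e k0 a * unitL haux hM PP ^ a : LRing q M (PP).ring) :
    ℍ → ℂ) ∈ LRing q M algSub
  cusp_ord : ∀ (γ : SL(2, ℤ)) (hγ : γ ∈ Gamma0 q), resInf γ hγ X ≠ 0 ∧
    (q : ℤ) ∣ (resInf γ hγ X).order - (e : ℤ) * (resInf γ hγ HP).order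
  point_ord : ∀ (hP : (PP).HasCDVRs) (τ : ℍ) (hg : GoodPoint haux (PP).ring τ), ∃ i h y : ℕ,
    (pointP haux hP hM hg X).order = (y : ℕ∞) ∧
    (pointP haux hP hM hg HP).order = (h : ℕ∞) ∧
    (q : ℤ) ∣ (y : ℤ) - ((e : ℤ) * h + i) ∧
    ((h = 0 ∧ q ∣ i) ∨ (h = 2 ∧ (q : ℤ) ∣ (i : ℤ) - m))

theorem order_ofPowerSeries_ne_zero {k : Type*} [Field k] {f : PowerSeries k} {i : ℕ}
    (h : f.order = (i : ℕ∞)) :
    HahnSeries.ofPowerSeries ℤ k f ≠ 0 ∧ (HahnSeries.ofPowerSeries ℤ k f).order = (i : ℤ) :=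
  ⟨(map_ne_zero_iff _ HahnSeries.ofPowerSeries_injective).mpr fun h0 => by
    rw [h0, PowerSeries.order_zero] at h
    exact ENat.top_ne_natCast _ h, Curve.Red.order_ofPowerSeries h⟩

include haux hM in
/-- **Rational characters have Kummer data.** -/
theorem exists_kummerData (hLM : L ∣ M) (hq2 : q ≠ 2) (x : parGroup (Gamma0 (L * q)) q)
    (hfix : ∀ s : Gal' q, FixK Φ 2 s →
      conjChar (goodLevel_Gamma0 (L * q)) (conjC Φ s) x = x) :
    Nonempty (KummerData Φ haux hM x) := by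
  classical
  obtain ⟨n0, hn00, h2n, hn⟩ := exists_levelExp (M := M) hM
  have : NeZero n0 := ⟨hn00.ne'⟩
  have hn0 : M ∣ q ^ n0 - 1 := hn n0 dvd_rfl
  obtain ⟨v, c, w, Nw, f, hv, hv0, hc, halg, hcfix, -, hw2, hNw, hw0, hf, hf0⟩ :=
    exists_formM Φ haux hM hn0 hLM x fun s hs =>
      hfix s fun z hz => hs z (TwoP.kField_mono Φ h2n hz)
  set P := PP
  have hP := ES.hasCDVRs_ofEquiv Φ
  have hO' : P.IsCDVR (oRing Φ n0) := isCDVR_oRing Φ n0
  have := hO'.dvr
  have hA := goodRoot_oRingM Φ hM hn0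
  have hζ := (zetaC_mem_oRingM Φ hM hn0).1
  set u : ℍ → ℂ := fun τ => v τ / auxW haux τ ^ 2
  have hrel : (f : ℍ → ℂ) = (Nw : ℍ → ℂ) ^ q * u ^ q := by rw [hf, hNw, mul_pow]
  have hNw0 : ∀ τ, (Nw : ℍ → ℂ) τ ≠ 0 := by rw [hNw]; exact hw0
  have hf0' : f ≠ 0 := fun h => hf0 (by rw [h]; rfl)
  obtain ⟨g, s, r, j, B, π, hπ, hB, hrj, hgu, hs, -, hgs, hgB, heB⟩ :=
    exists_kum_unit haux hA hO' hM hζ hq2 hf0' hrel
      (fun δ hδ => by rw [hNw]; exact hw2 δ hδ.2)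
  have hu : u ^ q ∈ LSub q M :=
    Toric.pow_div_auxW_mem_LSub haux (lam_le_gamma0M hM hLM) x.2.1 hv
  have hcont := fun γ => hasContent_kum haux hA hO' hu hNw0 hf0' hrel γ
  obtain ⟨C, cQ, hCalg, hC0, hexp, hres, hnormed⟩ :=
    exists_normalising_const haux hM hu hc halg (hcont 1)
  have hX0 : (fun _ : ℍ => C) * u ^ q ∈ LSub q M := mul_mem ((LSub q M).algebraMap_mem C) hu
  have hcX : ∀ γ, Toric.HasContent P (ES.lexp (q * M) γ ((fun _ => C) * u ^ q)) := fun γ => by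
    rw [ES.lexp_eq (((ES.HasLExp.const C).mul (ES.hasLExp_lexp hu.1 γ)).congr_fun
      (g := ES.act γ ((fun _ => C) * u ^ q)) fun τ => rfl)]
    exact (hcont γ).C_mul hC0
  obtain ⟨e, hbound⟩ := exists_integral_bound haux hA hO' hM hζ hq2 hX0 hcX
    fun γ hγ => normed_inf_of_one haux hM hP hq2 hX0 hcX hnormed hγ
  obtain ⟨X, hX, -⟩ := hbound e le_rfl
  have hXP : (X : ℍ → ℂ) = (HP : LRing q M P.ring) ^ e * ((fun _ => C) * u ^ q : ℍ → ℂ) := hX
  obtain ⟨m, hm⟩ := exists_order_const Φ haux hM hq2 hLM x.2.2 hv hn0 hgu hs hgs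
  have hHP : inclL hO'.le (hasseL haux hM hA hζ) = (HP : LRing q M P.ring) :=
    inclL_hasseL hO'.le haux hM hA hζ _ _
  refine ⟨⟨v, C, cQ, e, X, m, hv, hv0, hexp, hres, hXP, fun k0 a => ?_, fun γ hγ => ?_,
    fun hP τ hg => ?_⟩⟩
  · have hu' := pow_div_auxW_mem_LRing_algSub haux hM hLM x hv hc hcfix
    have hH := coe_hasseL_mem_algSub haux hM (P.goodRoot hM) goodRoot_zeta
    refine mul_mem (mul_mem (pow_mem ?_ k0) (pow_mem hH _))
      (pow_mem (coe_unitL_mem_algSub haux hM P) a)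
    rw [hXP]
    exact mul_mem (pow_mem hH e) (mul_mem (const_mem_LRing hCalg) hu')
  · obtain ⟨hne, hdvd⟩ := dvd_cusp_order Φ haux hM hq2 hLM x.2.2 hv hn0 hgu hs hgs hγ
    obtain ⟨hgne, hgord⟩ := order_resInf_inclL hγ hO' g hne
    have hH0 : resInf γ hγ (inclL hO'.le (hasseL haux hM hA hζ)) ≠ 0 := by
      rw [hHP]
      intro h0
      have h1 := resInf_hasseL_mul (P := P) hγ haux hM hq2 (P.goodRoot hM) goodRoot_zeta
      rw [h0, zero_mul] at h1
      exact zero_ne_one h1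
    obtain ⟨hX0', hdiv⟩ := order_kum_eq haux hA hO' hM hζ hq2 hu hNw0 hrel hnormed hrj hB
      hgB heB hX (resInf γ hγ) (φ := P.res) (fun c => resInf_constL γ hγ c) hgne hH0
    rw [hgord, hHP] at hdiv
    refine ⟨hX0', ?_⟩
    obtain ⟨a1, h1⟩ := hdiv
    obtain ⟨a2, h2⟩ := hdvd
    exact ⟨a1 + a2, by linear_combination h1 + h2⟩
  · obtain ⟨i, h, ⟨hi, hh⟩, hcase⟩ := hm τ hg
    set β : LRing q M P.ring →+* LaurentSeries (ResidueField P.ring) :=
      (HahnSeries.ofPowerSeries ℤ (ResidueField P.ring)).comp (pointP haux hP hM hg)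
    obtain ⟨hg0, hgord⟩ : β (inclL hO'.le g) ≠ 0 ∧ (β (inclL hO'.le g)).order = (i : ℤ) :=
      order_ofPowerSeries_ne_zero hi
    have hh' : (pointP haux hP hM hg (inclL hO'.le (hasseL haux hM hA hζ))).order = (h : ℕ∞) := hh
    obtain ⟨hH0, hHord⟩ : β (inclL hO'.le (hasseL haux hM hA hζ)) ≠ 0 ∧
        (β (inclL hO'.le (hasseL haux hM hA hζ))).order = (h : ℤ) :=
      order_ofPowerSeries_ne_zero hh'
    obtain ⟨hX0', hdiv⟩ := order_kum_eq haux hA hO' hM hζ hq2 hu hNw0 hrel hnormed hrj hB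
      hgB heB hX β (φ := P.res) (fun c => by
        show HahnSeries.ofPowerSeries ℤ _ (pointP haux hP hM hg (constL c)) = _
        rw [pointP_constL, HahnSeries.ofPowerSeries_C]) hg0 hH0
    have hne : pointP haux hP hM hg X ≠ 0 := fun h0 => hX0' (by
      show HahnSeries.ofPowerSeries ℤ _ (pointP haux hP hM hg X) = 0
      rw [h0, map_zero])
    obtain ⟨y, hy⟩ := ENat.ne_top_iff_exists.mp (fun ht => hne (PowerSeries.order_eq_top.mp ht))
    refine ⟨i, h, y, hy.symm, hHP ▸ hh', ?_, hcase⟩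
    rw [hgord, hHord, show (β X).order = (y : ℤ) from
      (order_ofPowerSeries_ne_zero hy.symm).2] at hdiv
    exact hdiv

end FermatAgent.BAD.AtP
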