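import Fermat.Agent.BAD.AtP.Kum.Relation
import Fermat.Agent.BAD.AtP.Geo.PointP
import Fermat.Agent.BAD.SerPS

/-!
# Residual series of integral Laurent series and of functions over the ring of the place

The residual series `redR` is multiplicative on integral series and depends only on the class
modulo small series; over the ring of the place the residual expansion at a cusp over `∞` is the
reduction of that of level `q M`.
-/

set_option autoImplicit false

open UpperHalfPlane CongruenceSubgroup IsLocalRing
open scoped MatrixGroups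
open ModularCurve (coeffMap coeffMap_coeff)

noncomputable section

namespace FermatAgent.BAD.AtP

open FermatAgent.BAD.TwoP (resInf infSer coeff_infSer sub_trB_mem_pInf)
open FermatAgent.ES (BRing SerIn lexp lexp_eq hasLExp_lexp zetaC AuxLevel CPlace GoodRoot act)
open FermatAgent.PSEMI.LevelMp (lexp_inf_level hasLExp_inf)

variable {q : ℕ} (P : CPlace q)

set_option hygiene false in
local notation "kP" => ResidueField (CPlace.ring P)

open Classical in
/-- The residual series of an integral series (zero when it is not integral). -/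
def redR (s : LaurentSeries ℂ) : LaurentSeries kP :=
  if h : SerIn P.ring s then coeffMap P.res (Curve.Red.liftSer P.ring ⟨s, h⟩) else 0

variable {P} {s t : LaurentSeries ℂ}

theorem redR_eq (h : SerIn P.ring s) :
    redR P s = ((coeffMap P.res).comp (Curve.Red.liftSer P.ring)) ⟨s, h⟩ := by
  rw [redR, dif_pos h]; rfl

theorem coeff_redR (h : SerIn P.ring s) (n : ℤ) :
    (redR P s).coeff n = P.res ⟨s.coeff n, h n⟩ := by
  rw [redR, dif_pos h, coeffMap_coeff]
  rfl

/-- The residual series of a product of integral series. -/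
theorem redR_mul (hs : SerIn P.ring s) (ht : SerIn P.ring t) :
    redR P (s * t) = redR P s * redR P t := by
  rw [redR_eq (hs.mul ht), redR_eq hs, redR_eq ht, ← map_mul]; rfl

/-- The residual series of a power of an integral series. -/
theorem redR_pow (hs : SerIn P.ring s) (n : ℕ) : redR P (s ^ n) = redR P s ^ n := by
  rw [redR_eq (hs.pow n), redR_eq hs, ← map_pow]; rfl

theorem redR_one : redR P 1 = 1 := by
  rw [redR_eq (SerIn.one (A := P.ring))]
  exact map_one _

theorem redR_eq_of_serLT (hs : SerIn P.ring s) (ht : SerIn P.ring t) (h : P.SerLT (s - t)) :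
    redR P s = redR P t := by
  ext n
  rw [coeff_redR hs, coeff_redR ht, ← sub_eq_zero, ← map_sub, P.res_eq_zero_iff]
  simpa using h n

theorem redR_ne_zero (hs : SerIn P.ring s) (h : P.UnitCoeff s) : redR P s ≠ 0 := fun h0 => by
  obtain ⟨n, hn⟩ := h
  have h1 := congrArg (fun x : LaurentSeries kP => x.coeff n) h0
  simp only [coeff_redR hs, HahnSeries.coeff_zero, P.res_eq_zero_iff] at h1
  exact h1.ne hn

/-- The residual series of a change of width. -/
theorem redR_expandL {m : ℕ} [NeZero m] (hs : SerIn P.ring s) :
    redR P (expandL m s) = expandL m (redR P s) := by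
  ext n
  refine (coeff_redR (expandL_serIn hs) n).trans ?_
  by_cases hn : (m : ℤ) ∣ n
  · obtain ⟨k, rfl⟩ := hn
    refine Eq.trans ?_ (expandL_coeff_mul m (redR P s) k).symm
    refine Eq.trans (congrArg P.res (Subtype.ext ?_)) (coeff_redR hs k).symm
    exact expandL_coeff_mul m s k
  · refine Eq.trans ?_ (expandL_coeff_of_not_dvd m (redR P s) hn).symm
    refine P.res_eq_zero_iff.mpr ?_
    show P.abv ((expandL m s).coeff n) < 1
    rw [expandL_coeff_of_not_dvd m s hn, map_zero]
    exact one_pos

/-- The residual series of an integral power series. -/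
theorem redR_ofPS (c : PowerSeries P.ring) :
    redR P (HahnSeries.ofPowerSeries ℤ ℂ (c.map P.ring.subtype)) =
      HahnSeries.ofPowerSeries ℤ kP (c.map P.res) := by
  ext i
  refine (coeff_redR (SerIn.ofPowerSeries c) i).trans ?_
  rcases le_or_gt 0 i with hi | hi
  · lift i to ℕ using hi
    refine Eq.trans (congrArg P.res (Subtype.ext ?_))
      ((HahnSeries.ofPowerSeries_apply_coeff _ i).trans (PowerSeries.coeff_map _ _ _)).symm
    exact (HahnSeries.ofPowerSeries_apply_coeff _ i).trans (PowerSeries.coeff_map _ _ _)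
  · refine Eq.trans ?_ (ModularCurve.ofPowerSeries_coeff_of_neg _ hi).symm
    refine P.res_eq_zero_iff.mpr ?_
    show P.abv ((HahnSeries.ofPowerSeries ℤ ℂ _).coeff i) < 1
    rw [ModularCurve.ofPowerSeries_coeff_of_neg _ hi, map_zero]
    exact one_pos

section Level

variable {M : ℕ} [Fact q.Prime] [NeZero M] {γ : SL(2, ℤ)} (hγ : γ ∈ Gamma0 q)

/-- Over the ring of the place the residual expansion is the reduction of that of level `M`. -/
theorem resInf_eq_redR (f : LRing q M P.ring) :
    resInf γ hγ f = redR P (lexp M γ (f : ℍ → ℂ)) := by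
  ext n
  rw [coeff_redR (PSEMI.LevelMp.serIn_inf f.2 hγ), resInf, RingHom.comp_apply, ES.coeff_liftSer]
  exact congrArg P.res (Subtype.ext (by
    rw [coeff_infSer, serAt_apply, lexp_inf_level f.2.2 hγ, expandL_coeff_mul]))

theorem resInf_eq_zero_of_mem {f : LRing q M P.ring}
    (hf : f ∈ (pInf le_rfl : Ideal (LRing q M P.ring))) : resInf γ hγ f = 0 := by
  ext n
  rw [resInf, RingHom.comp_apply, ES.coeff_liftSer, HahnSeries.coeff_zero]
  refine P.res_eq_zero_iff.mpr ?_
  rw [coeff_infSer]
  exact hf γ hγ _

/-- Functions congruent on the component at `∞` have the same residual expansions there. -/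
theorem resInf_eq_of_sub_mem {f g : LRing q M P.ring}
    (h : f - g ∈ (pInf le_rfl : Ideal (LRing q M P.ring))) : resInf γ hγ f = resInf γ hγ g :=
  sub_eq_zero.mp (by rw [← map_sub, resInf_eq_zero_of_mem hγ h])

/-- The order of a residual expansion does not depend on the coefficient ring. -/
theorem order_resInf_inclL {O : Subring ℂ} [IsLocalRing O] (hO' : P.IsCDVR O) (f : LRing q M O)
    (hf : resInf γ hγ f ≠ 0) :
    resInf γ hγ (inclL hO'.le f) ≠ 0 ∧
      (resInf γ hγ (inclL hO'.le f)).order = (resInf γ hγ f).order := by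
  have key : ∀ n, (resInf γ hγ (inclL hO'.le f)).coeff n = 0 ↔ (resInf γ hγ f).coeff n = 0 := by
    intro n
    simp only [resInf, RingHom.comp_apply, ES.coeff_liftSer, residue_eq_zero_iff]
    rw [hO'.mem_maximalIdeal_iff, ← residue_eq_zero_iff, P.res_eq_zero_iff, coeff_infSer,
      coeff_infSer]
    rfl
  have h1 : resInf γ hγ (inclL hO'.le f) ≠ 0 := fun h => hf (HahnSeries.ext (funext fun n => by
    rw [HahnSeries.coeff_zero]; exact (key n).mp (by rw [h, HahnSeries.coeff_zero])))
  refine ⟨h1, le_antisymm (HahnSeries.order_le_of_coeff_ne_zero ?_)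
    (HahnSeries.order_le_of_coeff_ne_zero ?_)⟩
  · exact fun h => hf (HahnSeries.coeff_order_eq_zero.mp ((key _).mp h))
  · exact fun h => h1 (HahnSeries.coeff_order_eq_zero.mp ((key _).mpr h))

variable {m : ℕ} (haux : AuxLevel M m) (hM : M.Coprime q)

omit [Fact (Nat.Prime q)] in
include hM in
/-- The powers of the series of the standard form are integral. -/
theorem serIn_wSer_pow (δ : SL(2, ℤ)) (j : ℕ) : SerIn P.ring (wSer haux δ ^ j) :=
  (wSer_inv_serIn haux (P.goodRoot hM) δ).1.pow j

omit [Fact (Nat.Prime q)] in
include hM in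
/-- The residual series of the standard form is not zero. -/
theorem redR_wSer_ne_zero (δ : SL(2, ℤ)) : redR P (wSer haux δ) ≠ 0 :=
  redR_ne_zero (wSer_inv_serIn haux (P.goodRoot hM) δ).1 (Toric.normed_wSer haux hM δ).2

/-- On the component at `∞` the residual series of `hasseL` is inverse to a power of that of the
standard form. -/
theorem resInf_hasseL_mul (hqm : q ≠ m) (hA : GoodRoot M P.ring (zetaC M))
    (hζ : zetaC (q * M) ∈ P.ring) :
    resInf γ hγ (hasseL haux hM hA hζ) * redR P (wSer haux γ) ^ (q - 1) = 1 := by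
  have hW := (wSer_inv_serIn haux (P.goodRoot hM) γ).1
  have hH := PSEMI.LevelMp.serIn_inf (hasseL haux hM hA hζ).2 hγ
  rw [resInf_eq_redR, ← redR_pow hW, ← redR_mul hH (hW.pow _), ← redR_one (P := P)]
  refine redR_eq_of_serLT (hH.mul (hW.pow _)) SerIn.one fun n => ?_
  have h := hasse_ser haux hM hA hζ le_rfl hqm hγ ((q : ℤ) * n)
  rw [serAt_apply, lexp_inf_level (hasseL haux hM hA hζ).2.2 hγ, ← map_mul,
    ← map_one (expandL q (R := ℂ)), ← map_sub, expandL_coeff_mul] at h
  exact h

end Level

end FermatAgent.BAD.AtP
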