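import Fermat.Agent.BAD.AtP.Forms.Residual
import Fermat.Agent.BAD.AtP.Res.Divisor
import Fermat.Agent.BAD.Toric.CuspOrder
import Fermat.Agent.BAD.Toric.BalSer

/-!
# The form of level `L` attached to the normalised Kummer function

The trace of `(C v ^ q) ^ k₀ (Δ(τ) ^ q / Δ(q τ)) ^ a`. On the component at `∞` its quotient by
the standard form is the function `X ^ k₀ H ^ (6 a - e k₀)`.
-/

set_option autoImplicit false

open UpperHalfPlane CongruenceSubgroup IsLocalRing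
open scoped MatrixGroups ModularForm

noncomputable section

namespace FermatAgent.BAD.AtP

open FermatAgent.BAD.TwoP (resInf)
open FermatAgent.BAD.Toric (unitL trB_mul_unitL_sub_mem coe_unitL eForm isTwist_eForm traceForm
  isTwist_traceForm traceForm_eq algSub mem_algSub dvd_mul_of_periodic exists_gamma0_mul_inv_mem
  act_T_pow_of_slash ofPowerSeries_eq_mul_wSer)
open FermatAgent.ES (BRing SerIn HasExp HasLExp lexp lexp_eq hasLExp_lexp act zetaC AuxLevel CPlace
  GoodRoot GoodPoint IsTwist parGroup auxW discHom)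
open FermatAgent.PSEMI.LevelMp (lexp_inf_level hasLExp_inf)

variable {q : ℕ} [hq : Fact q.Prime] {L M : ℕ} [NeZero L] [NeZero M] (haux : AuxLevel M 2)
  (hM : M.Coprime q) (hq2 : q ≠ 2) {P : CPlace q}

/-- The weight of the traced form, divided by twelve. -/
def kumWt (q r0 a : ℕ) : ℕ := r0 + a * (q - 1)

omit hq in
theorem six_kumWt {k0 r0 a : ℕ} (hk : k0 * q = 3 * r0) :
    6 * kumWt q r0 a = 2 * q * k0 + 6 * a * (q - 1) := by
  rw [kumWt, mul_add, ← mul_assoc 6 a, mul_assoc 2, mul_comm q k0, hk]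
  ring

/-- The traced form. -/
def kumF (q M : ℕ) [Fact q.Prime] [NeZero M] (C : ℂ) (v : ℍ → ℂ) (k0 r0 a : ℕ) : ℍ → ℂ :=
  traceForm q M ((2 * (6 * kumWt q r0 a) : ℕ) : ℤ)
    ((fun τ => (C * v τ ^ q) ^ k0) * eForm q ^ a)

/-- The function on the component at `∞`. -/
def kumY (X : LRing q M P.ring) (e k0 a : ℕ) : LRing q M P.ring :=
  X ^ k0 * hasseL haux hM (P.goodRoot hM) goodRoot_zeta ^ (6 * a - e * k0)

/-- The function of level `M`. -/
def kumG (X : LRing q M P.ring) (e k0 a : ℕ) : BRing M P.ring :=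
  trB (kumY haux hM X e k0 a * unitL haux hM P ^ a)

variable {C : ℂ} {v : ℍ → ℂ} {e : ℕ} {X : LRing q M P.ring}
  (hX : (X : ℍ → ℂ) = (hasseL haux hM (P.goodRoot hM) goodRoot_zeta : LRing q M P.ring) ^ e *
    ((fun _ => C) * (fun τ => v τ / auxW haux τ ^ 2) ^ q : ℍ → ℂ))
  {k0 r0 a : ℕ} (hk : k0 * q = 3 * r0) (hea : e * k0 ≤ 6 * a)

include hX hea in
theorem coe_kumY (τ : ℍ) : (kumY haux hM X e k0 a : ℍ → ℂ) τ =
    hasseFun haux q τ ^ (6 * a) * (C * (v τ / auxW haux τ ^ 2) ^ q) ^ k0 := by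
  show ((X : ℍ → ℂ) τ) ^ k0 * hasseFun haux q τ ^ (6 * a - e * k0) = _
  rw [hX]
  show (hasseFun haux q τ ^ e * (C * (v τ / auxW haux τ ^ 2) ^ q)) ^ k0 * _ = _
  rw [mul_pow, ← pow_mul, mul_right_comm, ← pow_add, Nat.add_sub_cancel' hea]

include hX hk hea in
theorem coe_kumElt :
    ((kumY haux hM X e k0 a * unitL haux hM P ^ a : LRing q M P.ring) : ℍ → ℂ) =
      fun τ => ((fun τ => (C * v τ ^ q) ^ k0) * eForm q ^ a : ℍ → ℂ) τ /
        auxW haux τ ^ (6 * kumWt q r0 a) := by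
  funext τ
  have h1 := ES.auxW_ne_zero haux τ
  have h2 := ES.auxW_ne_zero haux (dilPt q τ)
  have h3 := ModularForm.discriminant_ne_zero (dilPt q τ)
  show (kumY haux hM X e k0 a : ℍ → ℂ) τ * (unitL haux hM P : ℍ → ℂ) τ ^ a = _
  rw [coe_kumY haux hM hX hea, coe_unitL, six_kumWt hk]
  obtain ⟨r, hr⟩ : ∃ r, q = r + 1 := ⟨q - 1, by have := hq.out.one_le; omega⟩
  have e1 : auxW haux τ ^ (6 * q * a) = auxW haux τ ^ (6 * a * (q - 1)) *
      auxW haux τ ^ (6 * a) := by
    rw [← pow_add]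
    congr 1
    simp only [hr, Nat.add_sub_cancel]
    ring
  simp only [eForm, hasseFun, Pi.mul_apply, Pi.pow_apply, div_pow, mul_pow, inv_div, ← pow_mul,
    pow_add]
  field_simp
  rw [e1]
  ring

include hX hk hea in
/-- The traced form is the function of level `M` times a power of the standard form. -/
theorem kumF_eq : kumF q M C v k0 r0 a =
    (kumG haux hM X e k0 a : ℍ → ℂ) * fun τ => auxW haux τ ^ (6 * kumWt q r0 a) := by
  rw [kumF, traceForm_eq haux, ← coe_kumElt haux hM hX hk hea]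
  rfl

omit [NeZero L] in
include hM hk in
/-- The traced form has level `L`. -/
theorem isTwist_kumF {χ : parGroup (Gamma0 (L * q)) q} (hLM : L ∣ M)
    (hv : IsTwist (Gamma0 (L * q)) ((2 * 2 : ℕ) : ℤ) (χ : Gamma0 (L * q) →* ℂˣ) v) :
    IsTwist (Gamma0 L) ((12 * kumWt q r0 a : ℕ) : ℤ) 1 (kumF q M C v k0 r0 a) := by
  have h1 := (((hv.pow q).smul C).pow k0).mul ((isTwist_eForm (L := L) hM hLM).pow a)
  have hw : (k0 : ℤ) * ((q : ℤ) * ((2 * 2 : ℕ) : ℤ)) + (a : ℤ) * ((12 * (q - 1) : ℕ) : ℤ) =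
      ((2 * (6 * kumWt q r0 a) : ℕ) : ℤ) := by
    rw [six_kumWt hk]; push_cast; ring
  rw [χ.2.1, hw] at h1
  have h2 : IsTwist (Gamma0 (L * q)) ((2 * (6 * kumWt q r0 a) : ℕ) : ℤ) 1
      ((fun τ => (C * v τ ^ q) ^ k0) * eForm q ^ a) := by
    convert h1 using 1
    · exact MonoidHom.ext fun γ => by simp [MonoidHom.pow_apply]
    · funext τ; simp
  rw [show 12 * kumWt q r0 a = 2 * (6 * kumWt q r0 a) by ring]
  exact isTwist_traceForm hM hLM h2

include hq2 in
/-- **The congruence on the component at `∞`.** -/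
theorem kumG_sub_mem :
    raiseL M (kumG haux hM X e k0 a) - kumY haux hM X e k0 a ∈
      (pInf le_rfl : Ideal (LRing q M P.ring)) := by
  exact trB_mul_unitL_sub_mem haux hM hq2 _ _

include hq2 in
/-- The residual series at a point of the place. -/
theorem discHom_kumG (hP : P.HasCDVRs) {τ : ℍ} (hg : GoodPoint haux P.ring τ) :
    (discHom haux τ (P.goodRoot hM) hg (kumG haux hM X e k0 a)).map P.res =
      pointP haux hP hM hg (kumY haux hM X e k0 a) := by
  rw [← pointP_raiseL haux hP hM hg]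
  refine sub_eq_zero.mp ?_
  rw [← map_sub]
  exact pointP_eq_zero haux hP hM hg (kumG_sub_mem haux hM hq2)

variable {cQ : PowerSeries P.ring} (hcQ : HasExp 1 (fun τ => C * v τ ^ q) (cQ.map P.ring.subtype))

include hX hcQ hq2 in
/-- The residual series at `∞` of the normalised function. -/
theorem resInf_kum_mul :
    resInf 1 (one_mem (Gamma0 q)) X * redR P (wSer haux 1) ^ (2 * q + e * (q - 1)) =
      expandL M (HahnSeries.ofPowerSeries ℤ _ (cQ.map P.res)) := by
  set H : LRing q M P.ring := hasseL haux hM (P.goodRoot hM) goodRoot_zeta with hHdef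
  have h1 := one_mem (Gamma0 q)
  have hH := hasLExp_inf H.2.2 h1
  have hXl := hasLExp_inf X.2.2 h1
  have hW : HasLExp M (auxW haux) (wSer haux 1) := by
    have h := hasLExp_auxW_conj haux (1 : SL(2, ℤ))
    rwa [show ES.dif M (ES.vmul M (ES.refB haux.dvd) 1) (ES.vmul M (ES.refA haux.dvd) 1) =
      auxW haux by rw [ES.vmul_one, ES.vmul_one]; rfl] at h
  rw [ES.act_one] at hH hXl
  have hid : lexp M 1 (X : ℍ → ℂ) * wSer haux 1 ^ (2 * q) =
      lexp M 1 (H : ℍ → ℂ) ^ e *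
        expandL M (HahnSeries.ofPowerSeries ℤ ℂ (cQ.map P.ring.subtype)) := by
    refine (hXl.mul (hW.pow _)).series_unique
      (((hH.pow e).mul (g := fun τ => C * v τ ^ q) ?_).congr_fun fun τ => ?_)
      (f := (X : ℍ → ℂ) * auxW haux ^ (2 * q))
    · have h := hasLExp_raise M (HasLExp.of_exp hcQ)
      rwa [mul_one] at h
    · have hd := ES.auxW_ne_zero haux τ
      simp only [hX, Pi.mul_apply, Pi.pow_apply, div_pow, ← pow_mul]
      field_simp
  have hWin := serIn_wSer_pow (P := P) haux hM 1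
  have hHin : SerIn P.ring (lexp M 1 (H : ℍ → ℂ)) := PSEMI.LevelMp.serIn_inf H.2 h1
  have h := congrArg (redR P) hid
  rw [redR_mul (PSEMI.LevelMp.serIn_inf X.2 h1) (hWin _),
    redR_pow (wSer_inv_serIn haux (P.goodRoot hM) 1).1,
    redR_mul (hHin.pow _) (expandL_serIn (SerIn.ofPowerSeries cQ)), redR_pow hHin,
    redR_expandL (SerIn.ofPowerSeries cQ), redR_ofPS, ← resInf_eq_redR h1,
    ← resInf_eq_redR h1] at h
  rw [pow_add, mul_comm e, pow_mul _ (q - 1), ← mul_assoc, h, mul_right_comm, ← mul_pow,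
    resInf_hasseL_mul h1 haux hM hq2, one_pow, one_mul]

omit [NeZero L] in
include hX hk hea hcQ hq2 in
/-- **The series of the form at `∞`.** -/
theorem exists_kumF_ser {χ : parGroup (Gamma0 (L * q)) q} (hLM : L ∣ M)
    (hv : IsTwist (Gamma0 (L * q)) ((2 * 2 : ℕ) : ℤ) (χ : Gamma0 (L * q) →* ℂˣ) v)
    (halg : ((kumY haux hM X e k0 a * unitL haux hM P ^ a : LRing q M P.ring) : ℍ → ℂ) ∈
      LRing q M algSub) (hAalg : GoodRoot M algSub (zetaC M)) :
    ∃ c : PowerSeries P.ring, HasExp 1 (kumF q M C v k0 r0 a) (c.map P.ring.subtype) ∧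
      (∀ e, IsAlgebraic ℚ ((PowerSeries.coeff e c : P.ring) : ℂ)) ∧
      HahnSeries.ofPowerSeries ℤ (ResidueField P.ring) (c.map P.res) =
        HahnSeries.ofPowerSeries ℤ _ (cQ.map P.res) ^ k0 := by
  set wt := kumWt q r0 a
  set F := kumF q M C v k0 r0 a
  set G := kumG haux hM X e k0 a
  have hF := isTwist_kumF (L := L) (a := a) hM hk hLM hv (C := C)
  have hcF : HasExp 1 F (qExpansion ((1 : ℕ) : ℝ) F) :=
    ES.hasExp_one_twist (ES.goodLevel_Gamma0 L).T_mem (1 : parGroup (Gamma0 L) 1).2.2 hF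
  set c0 := qExpansion ((1 : ℕ) : ℝ) F
  have hGser : lexp M 1 (G : ℍ → ℂ) * wSer haux 1 ^ (6 * wt) =
      expandL M (HahnSeries.ofPowerSeries ℤ ℂ c0) := by
    rw [expandL_ofPowerSeries]
    refine (ofPowerSeries_eq_mul_wSer haux G (6 * wt) ?_).symm
    rw [SlashAction.slash_one, ← kumF_eq haux hM hX hk hea]
    exact hasExp_widen (NeZero.ne M) hcF
  have hGin : SerIn P.ring (lexp M 1 (G : ℍ → ℂ)) := fun i => G.2.2 1 i
  have hmem : ∀ i : ℕ, PowerSeries.coeff i c0 ∈ P.ring := fun i => by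
    have h := (hGin.mul (serIn_wSer_pow (P := P) haux hM 1 (6 * wt))) ((M : ℤ) * i)
    rwa [hGser, expandL_coeff_mul, HahnSeries.ofPowerSeries_apply_coeff] at h
  have hGalg : SerIn algSub (lexp M 1 (G : ℍ → ℂ)) := fun i =>
    (trL_mem_BRing halg).2 1 i
  have halgc : ∀ i : ℕ, IsAlgebraic ℚ (PowerSeries.coeff i c0) := fun i => mem_algSub.mp <| by
    have h := (hGalg.mul ((wSer_inv_serIn haux hAalg 1).1.pow (6 * wt))) ((M : ℤ) * i)
    rwa [hGser, expandL_coeff_mul, HahnSeries.ofPowerSeries_apply_coeff] at h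
  set c : PowerSeries P.ring := PowerSeries.mk fun i => ⟨_, hmem i⟩
  have hc : c.map P.ring.subtype = c0 := by ext i; simp [c]
  refine ⟨c, hc ▸ hcF, fun i => by simpa [c] using halgc i, expandL_injective M ?_⟩
  have h := congrArg (redR P) hGser
  have h1 := one_mem (Gamma0 q)
  rw [redR_mul hGin (serIn_wSer_pow haux hM 1 _),
    redR_pow (wSer_inv_serIn haux (P.goodRoot hM) 1).1,
    ← hc, redR_expandL (SerIn.ofPowerSeries c), redR_ofPS] at h
  rw [← h, map_pow, ← resInf_kum_mul haux hM hq2 hX hcQ,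
    show redR P (lexp M 1 (G : ℍ → ℂ)) = resInf 1 h1 (raiseL M G) from
      (resInf_eq_redR h1 (raiseL M G)).symm,
    resInf_eq_of_sub_mem h1 (kumG_sub_mem haux hM hq2), kumY, map_mul, map_pow, map_pow, mul_pow,
    ← pow_mul (redR P (wSer haux 1)),
    show 6 * wt = (2 * q + e * (q - 1)) * k0 + (q - 1) * (6 * a - e * k0) by
      rw [show 6 * wt = _ from six_kumWt hk]
      obtain ⟨d, hd⟩ := Nat.le.dest hea
      rw [← hd, Nat.add_sub_cancel_left]
      ring,
    pow_add, pow_mul _ (q - 1), mul_mul_mul_comm, ← mul_pow (resInf 1 h1 _) (redR P _ ^ (q - 1)),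
    resInf_hasseL_mul h1 haux hM hq2, one_pow, mul_one]

omit [NeZero L] in
include hX hk hea hq2 in
/-- **The orders at the cusps.** -/
theorem dvd_cusp_kumF {χ : parGroup (Gamma0 (L * q)) q} (hLM : L ∣ M)
    (hv : IsTwist (Gamma0 (L * q)) ((2 * 2 : ℕ) : ℤ) (χ : Gamma0 (L * q) →* ℂˣ) v)
    (hord : ∀ (γ : SL(2, ℤ)) (hγ : γ ∈ Gamma0 q), resInf γ hγ X ≠ 0 ∧
      (q : ℤ) ∣ (resInf γ hγ X).order -
        (e : ℤ) * (resInf γ hγ (hasseL haux hM (P.goodRoot hM) goodRoot_zeta :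
          LRing q M P.ring)).order)
    {γ : SL(2, ℤ)} {w : ℕ} (hw : γ * ModularGroup.T ^ w * γ⁻¹ ∈ Gamma0 L)
    {d : PowerSeries P.ring}
    (hd : HasExp M (kumF q M C v k0 r0 a ∣[((12 * kumWt q r0 a : ℕ) : ℤ)] γ)
      (d.map P.ring.subtype)) {i : ℕ} (hi : (d.map P.res).order = i) : q * M ∣ w * i := by
  obtain ⟨l, hl, hδ⟩ := exists_gamma0_mul_inv_mem hM hLM γ
  set F := kumF q M C v k0 r0 a
  set wt := kumWt q r0 a
  set k : ℤ := ((12 * wt : ℕ) : ℤ) with hkdef
  have hF : IsTwist (Gamma0 L) k 1 F := isTwist_kumF hM hk hLM hv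
  have hinv : ∀ δ ∈ Gamma0 L, F ∣[k] δ = F := fun δ hδ =>
    (hF.slash ⟨δ, hδ⟩).trans (funext fun τ => by simp)
  have hFl : F ∣[k] γ = F ∣[k] l := by
    conv_rhs => rw [show l = (l * γ⁻¹) * γ by group, SlashAction.slash_mul, hinv _ hδ]
  -- periodicity
  have hper : act (ModularGroup.T ^ w) (F ∣[k] γ) = F ∣[k] γ := by
    have h3 : (F ∣[k] γ) ∣[k] (ModularGroup.T ^ w) = F ∣[k] γ := by
      rw [← SlashAction.slash_mul, show γ * ModularGroup.T ^ w =
        (γ * ModularGroup.T ^ w * γ⁻¹) * γ by group, SlashAction.slash_mul, hinv _ hw]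
    exact act_T_pow_of_slash h3
  obtain ⟨hdi, -⟩ := PowerSeries.order_eq_nat.mp hi
  rw [PowerSeries.coeff_map] at hdi
  have hMi : M ∣ w * i := dvd_mul_of_periodic hd hper (e := i) fun h0 => hdi (by
    rw [PowerSeries.coeff_map] at h0
    rw [show PowerSeries.coeff i d = 0 from Subtype.ext h0, map_zero])
  -- divisibility by `q`
  set G := kumG haux hM X e k0 a
  have hd' : HahnSeries.ofPowerSeries ℤ ℂ (d.map P.ring.subtype) =
      lexp M l (G : ℍ → ℂ) * wSer haux l ^ (6 * wt) := by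
    refine ofPowerSeries_eq_mul_wSer haux G (6 * wt) ?_
    rwa [hFl, hkdef, show 12 * wt = 2 * (6 * wt) by ring,
      show F = _ from kumF_eq haux hM hX hk hea] at hd
  have hG : SerIn P.ring (lexp M l (G : ℍ → ℂ)) := fun j => G.2.2 l j
  have h := congrArg (redR P) hd'
  rw [redR_ofPS, redR_mul hG (serIn_wSer_pow haux hM l _),
    redR_pow (wSer_inv_serIn haux (P.goodRoot hM) l).1,
    show redR P (lexp M l (G : ℍ → ℂ)) = resInf l hl (raiseL M G) from
      (resInf_eq_redR hl (raiseL M G)).symm,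
    resInf_eq_of_sub_mem hl (kumG_sub_mem haux hM hq2), kumY, map_mul, map_pow, map_pow] at h
  obtain ⟨hX0, hXord⟩ := hord l hl
  have hW := redR_wSer_ne_zero (P := P) haux hM l
  have hHW := resInf_hasseL_mul (P := P) hl haux hM hq2 (P.goodRoot hM) goodRoot_zeta
  set bH := resInf l hl (hasseL haux hM (P.goodRoot hM) goodRoot_zeta : LRing q M P.ring)
  set bW := redR P (wSer haux l)
  have hH0 : bH ≠ 0 := fun h0 => by rw [h0, zero_mul] at hHW; exact zero_ne_one hHW
  have ho := congrArg HahnSeries.order hHW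
  rw [HahnSeries.order_mul hH0 (pow_ne_zero _ hW), HahnSeries.order_one,
    TwoP.order_pow' hW] at ho
  have h2 := congrArg HahnSeries.order h
  rw [Curve.Red.order_ofPowerSeries hi,
    HahnSeries.order_mul (mul_ne_zero (pow_ne_zero _ hX0) (pow_ne_zero _ hH0)) (pow_ne_zero _ hW),
    HahnSeries.order_mul (pow_ne_zero _ hX0) (pow_ne_zero _ hH0), TwoP.order_pow' hX0,
    TwoP.order_pow' hH0, TwoP.order_pow' hW] at h2
  have hqi : (q : ℤ) ∣ (i : ℤ) := by
    obtain ⟨s, hs⟩ := hXord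
    refine ⟨(k0 : ℤ) * s + 2 * k0 * bW.order, ?_⟩
    have h6 : ((6 * wt : ℕ) : ℤ) = 2 * q * k0 + 6 * a * ((q - 1 : ℕ) : ℤ) := by
      rw [show 6 * wt = _ from six_kumWt hk]; push_cast; rfl
    rw [Nat.cast_sub hea] at h2
    push_cast at h2 h6
    linear_combination h2 + (k0 : ℤ) * hs + bW.order * h6 + 6 * (a : ℤ) * ho
  have hqi' : q ∣ i := Int.natCast_dvd_natCast.mp hqi
  exact (Nat.Coprime.mul_dvd_of_dvd_of_dvd hM.symm (hqi'.mul_left w) hMi)

end FermatAgent.BAD.AtP
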